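import Fermat.Agent.LT.CFT.Spec
import Fermat.Agent.S55.G.Rec.CupAddH496
import Fermat.Agent.S55.G.Rec.SCH174.Helpers

/-!
# Row LT, tower CFT, leaf PRIM (helper341, OFF-MAIN): primary decomposition

`cycSumOfRec341 I : Fermat.Agent.LT.CFT.CycSumOfRecC I` for EVERY local invariant system `I`
(in particular for `Iloc`): the reciprocity law for the odd primes (main) and for `p = 2` over
totally complex fields (`RecTC2`) give the sum formula for all cup classes `a ∪ δχ`.

Proof.  The classes `x ∈ Br(K)` satisfying "finite support and `∑_v inv_v (x_v) = 0`" form a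
subgroup `sumZero341 I U R` of `Br(K)` (`invAt` is additive).  A subgroup containing all elements
of prime power order contains all torsion elements (`mem_of_torsion341`, Bezout).  The cup class
`a ∪ δχ` is killed by `n` (main `H174.gcc_nsmul_eq_zero` + `H496.cupAdd`).

More generally `sumFormula_of_torsion341`: the sum formula for ALL torsion classes of `Br(K)`,
`K` totally complex.
-/

set_option autoImplicit false

open Fermat.Agent.S55.G.Rec

noncomputable section

namespace Fermat.Agent.LT.CFT.H341

local notation "Qb" => AlgebraicClosure ℚ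
local notation "GQ" => (AlgebraicClosure ℚ ≃ₐ[ℚ] AlgebraicClosure ℚ)

/-! ## 1. Abstract: prime power torsion generates the torsion -/

/-- A subgroup of an abelian group which contains all elements of prime power order contains
all torsion elements. -/
theorem mem_of_torsion341 {A : Type*} [AddCommGroup A] (S : AddSubgroup A)
    (hS : ∀ p : ℕ, p.Prime → ∀ x : A, (∃ k : ℕ, p ^ k • x = 0) → x ∈ S) :
    ∀ n : ℕ, n ≠ 0 → ∀ x : A, n • x = 0 → x ∈ S := by
  intro n
  induction n using Nat.recOnPosPrimePosCoprime with
  | prime_pow p k hp _ =>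
    intro _ x hx
    exact hS p hp x ⟨k, hx⟩
  | zero => intro h; exact absurd rfl h
  | one =>
    intro _ x hx
    rw [one_smul] at hx
    rw [hx]
    exact S.zero_mem
  | coprime a b _ _ hab iha ihb =>
    intro hn x hx
    have ha0 : a ≠ 0 := fun h => hn (by rw [h, zero_mul])
    have hb0 : b ≠ 0 := fun h => hn (by rw [h, mul_zero])
    obtain ⟨u, v, huv⟩ := (Nat.isCoprime_iff_coprime.2 hab : IsCoprime (a : ℤ) (b : ℤ))
    have h1 : a • x ∈ S := by
      refine ihb hb0 _ ?_
      rw [← mul_smul, mul_comm]
      exact hx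
    have h2 : b • x ∈ S := by
      refine iha ha0 _ ?_
      rw [← mul_smul]
      exact hx
    have hx' : x = u • (a • x) + v • (b • x) := by
      have e1 : u • (a • x) = (u * (a : ℤ)) • x := by
        rw [mul_smul, natCast_zsmul]
      have e2 : v • (b • x) = (v * (b : ℤ)) • x := by
        rw [mul_smul, natCast_zsmul]
      rw [e1, e2, ← add_smul, huv, one_smul]
    rw [hx']
    exact S.add_mem (S.zsmul_mem h1 u) (S.zsmul_mem h2 v)

/-! ## 2. The subgroup of classes satisfying the sum formula -/

lemma invAt_zero341 (I : LocalInvSystem) (q : Nat.Primes) (g : GQ) (U : Subgroup GQ) :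
    I.invAt q g U 0 = 0 := by
  unfold LocalInvSystem.invAt
  simp only [map_zero]

lemma invAt_add341 (I : LocalInvSystem) (q : Nat.Primes) (g : GQ) (U : Subgroup GQ)
    (x y : gBr U) : I.invAt q g U (x + y) = I.invAt q g U x + I.invAt q g U y := by
  unfold LocalInvSystem.invAt
  simp only [map_add]

lemma invAt_neg341 (I : LocalInvSystem) (q : Nat.Primes) (g : GQ) (U : Subgroup GQ)
    (x : gBr U) : I.invAt q g U (-x) = - I.invAt q g U x := by
  unfold LocalInvSystem.invAt
  simp only [map_neg]

/-- The row sums `q ↦ ∑_{v ∣ q} inv_v (x_v)`. -/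
def invRow341 (I : LocalInvSystem) (U : Subgroup GQ) (R : Nat.Primes → Finset GQ) (x : gBr U) :
    Nat.Primes → AddCircle (1 : ℚ) :=
  fun q => ∑ r ∈ R q, I.invAt q r U x

lemma invRow_zero341 (I : LocalInvSystem) (U : Subgroup GQ) (R : Nat.Primes → Finset GQ) :
    invRow341 I U R 0 = 0 := by
  funext q
  simp only [invRow341, invAt_zero341, Finset.sum_const_zero, Pi.zero_apply]

lemma invRow_add341 (I : LocalInvSystem) (U : Subgroup GQ) (R : Nat.Primes → Finset GQ)
    (x y : gBr U) : invRow341 I U R (x + y) = invRow341 I U R x + invRow341 I U R y := by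
  funext q
  simp only [invRow341, invAt_add341, Finset.sum_add_distrib, Pi.add_apply]

lemma invRow_neg341 (I : LocalInvSystem) (U : Subgroup GQ) (R : Nat.Primes → Finset GQ)
    (x : gBr U) : invRow341 I U R (-x) = - invRow341 I U R x := by
  funext q
  simp only [invRow341, invAt_neg341, Finset.sum_neg_distrib, Pi.neg_apply]

lemma sumInv_eq341 (I : LocalInvSystem) (U : Subgroup GQ) (R : Nat.Primes → Finset GQ)
    (x : gBr U) : I.sumInv U R x = ∑ᶠ q : Nat.Primes, invRow341 I U R x q := rfl

/-- The classes of `Br(K)` with finitely many non-zero row sums and vanishing total sum. -/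
def sumZero341 (I : LocalInvSystem) (U : Subgroup GQ) (R : Nat.Primes → Finset GQ) :
    AddSubgroup (gBr U) where
  carrier := {x | (Function.support (invRow341 I U R x)).Finite ∧
    ∑ᶠ q : Nat.Primes, invRow341 I U R x q = 0}
  zero_mem' := by
    refine ⟨?_, ?_⟩
    · rw [invRow_zero341, Function.support_zero]
      exact Set.finite_empty
    · rw [invRow_zero341]
      simp only [Pi.zero_apply, finsum_zero]
  add_mem' := by
    rintro x y ⟨hx, hx0⟩ ⟨hy, hy0⟩
    refine ⟨?_, ?_⟩
    · rw [invRow_add341]
      exact (hx.union hy).subset (Function.support_add _ _)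
    · rw [invRow_add341]
      simp only [Pi.add_apply]
      rw [finsum_add_distrib hx hy, hx0, hy0, add_zero]
  neg_mem' := by
    rintro x ⟨hx, hx0⟩
    refine ⟨?_, ?_⟩
    · rw [invRow_neg341, Function.support_neg]
      exact hx
    · rw [invRow_neg341]
      simp only [Pi.neg_apply]
      rw [finsum_neg_distrib, hx0, neg_zero]

lemma mem_sumZero_iff341 (I : LocalInvSystem) (U : Subgroup GQ) (R : Nat.Primes → Finset GQ)
    (x : gBr U) : x ∈ sumZero341 I U R ↔
      (Function.support fun q : Nat.Primes => ∑ r ∈ R q, I.invAt q r U x).Finite ∧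
        I.sumInv U R x = 0 := Iff.rfl

/-! ## 3. The sum formula for all torsion classes -/

/-- **Sum formula for torsion classes** over totally complex fields, from the reciprocity laws
for the prime power torsion. -/
theorem sumFormula_of_torsion341 (I : LocalInvSystem)
    (hodd : ∀ (p : ℕ) [Fact p.Prime], p ≠ 2 → ReciprocitySpec I p) (h2 : RecTC2 I)
    (U : Subgroup GQ) (hU : IsOpenQ U) (hNo : NoOrderTwo U) (n : ℕ) (hn : n ≠ 0)
    (x : gBr U) (hx : n • x = 0) (R : Nat.Primes → Finset GQ) (hR : IsPlaceReps U R) :
    (Function.support fun q : Nat.Primes => ∑ r ∈ R q, I.invAt q r U x).Finite ∧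
      I.sumInv U R x = 0 := by
  rw [← mem_sumZero_iff341]
  refine mem_of_torsion341 (sumZero341 I U R) ?_ n hn x hx
  intro p hp y hy
  rw [mem_sumZero_iff341]
  by_cases hp2 : p = 2
  · subst hp2
    exact h2 U hU hNo y hy R hR
  · have : Fact p.Prime := ⟨hp⟩
    exact hodd p hp2 U hU y hy R hR

/-- **Leaf PRIM** of the tower CFT, for every local invariant system. -/
theorem cycSumOfRec341 (I : LocalInvSystem) : CycSumOfRecC I := by
  intro hodd h2 U hU hNo n hn χ hχ a ha R hR
  exact sumFormula_of_torsion341 I hodd h2 U hU hNo n hn (gcc U n χ a)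
    (H174.gcc_nsmul_eq_zero H496.cupAdd U n hn χ hχ a ha) R hR

/-- **Leaf PRIM** at the local invariant system of main. -/
theorem cycSumOfRec_Iloc341 : CycSumOfRecC Iloc := cycSumOfRec341 Iloc

end Fermat.Agent.LT.CFT.H341

end
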